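import Fermat.Agent.S18.Integ.Top
import Fermat.Agent.S18.Mod.Defs
import Fermat.Agent.S18.H144.ConstFk
import Fermat.Agent.S18.H568.D2
import Fermat.Agent.S18.H634.Coord
import Fermat.Agent.S18.H965.Glue
import Fermat.Agent.S18.H694.PrimeRed
import Fermat.Prelude.Def_EllipticCurve_FrobeniusTrace

/-!
# S18 — final chain (row-lead helper18): frozen S18 from the two nodes `node_mod` and `node_alg`

    S18(N) ⟸ prime m [H694] ⟸ Top [Integ/Top, H665] ⟸ CONST_Fk [H144] + CORE(N)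
    CORE(N) ⟸ D2 [H568] ⟸ CORE(M), M = levelM N ℓ ⟸ GLUE [H965] ⟸ COORD [H634] + MOD + ALG

* `coreStatement_of_mod_alg` : the hub `CoreStatement N A m` (prime `m`, `ℓ ∤ m`) from
  `Mod.GoodModelStatement (levelM N ℓ) ℓ A` and `Mod.AlgStatement (levelM N ℓ)`;
* `s18_of_mod_alg` : the frozen statement S18 from the same two inputs (for all primes `m`).

Sorry-free; the two inputs are hypotheses.
-/

set_option autoImplicit false

noncomputable section

namespace Fermat.Agent.S18.Integ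

open ModularCurve AlgebraicCurve

/-- The level at which good reduction is proved. -/
def levelM (N ℓ : ℕ) : ℕ := if ℓ = 3 then Nat.lcm N 2 else if ℓ = 2 then Nat.lcm N 3 else N

theorem levelM_ne_zero (N ℓ : ℕ) [NeZero N] : levelM N ℓ ≠ 0 := by
  unfold levelM
  split_ifs <;> simp [NeZero.ne N]

theorem not_dvd_levelM (N : ℕ) {ℓ : ℕ} [Fact ℓ.Prime] (hℓN : ¬ ℓ ∣ N) : ¬ ℓ ∣ levelM N ℓ := by
  have hp : ℓ.Prime := Fact.out
  unfold levelM
  split_ifs with h3 h2
  · subst h3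
    intro h
    have := (Nat.Prime.dvd_mul (by norm_num : Nat.Prime 3)).mp (h.trans (Nat.lcm_dvd_mul N 2))
    rcases this with h | h
    · exact hℓN h
    · omega
  · subst h2
    intro h
    have := (Nat.Prime.dvd_mul (by norm_num : Nat.Prime 2)).mp (h.trans (Nat.lcm_dvd_mul N 3))
    rcases this with h | h
    · exact hℓN h
    · omega
  · exact hℓN

theorem two_dvd_levelM (N : ℕ) {ℓ : ℕ} (h : ℓ = 3) : 2 ∣ levelM N ℓ := by
  unfold levelM
  rw [if_pos h]
  exact Nat.dvd_lcm_right N 2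

theorem three_dvd_levelM (N : ℕ) {ℓ : ℕ} (h : ℓ = 2) : 3 ∣ levelM N ℓ := by
  unfold levelM
  rw [if_neg (by omega), if_pos h]
  exact Nat.dvd_lcm_right N 3

/-- **The hub at level `N`** (prime `m`, `ℓ ∤ m`) from MOD and ALG at level `levelM N ℓ`. -/
theorem coreStatement_of_mod_alg (N : ℕ) [NeZero N] {ℓ : ℕ} [Fact ℓ.Prime] (hℓN : ¬ ℓ ∣ N)
    (A : ValuationSubring Qb) (hA : A.LiesOverPrime ℓ) (m : ℕ) (hmp : m.Prime) (hm : ¬ ℓ ∣ m)
    (hmod : Mod.GoodModelStatement (levelM N ℓ) ℓ A) (halg : Mod.AlgStatement (levelM N ℓ)) :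
    CoreStatement N A m := by
  have hM0 : NeZero (levelM N ℓ) := ⟨levelM_ne_zero N ℓ⟩
  have hℓM := not_dvd_levelM N hℓN
  have hcoreM : CoreStatement (levelM N ℓ) A m :=
    H965.node_glue (levelM N ℓ) hℓM A hA m hmp hm
      (H634.node_coord (levelM N ℓ) hℓM (two_dvd_levelM N) (three_dvd_levelM N)) hmod halg
  exact H568.node_d2 N hℓN A hA m hm hcoreM

/-- **Frozen S18 from `node_mod` and `node_alg`.** -/
theorem s18_of_mod_alg (N : ℕ) [NeZero N] {ℓ : ℕ} [Fact ℓ.Prime] (hℓN : ¬ ℓ ∣ N)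
    (A : ValuationSubring Qb) (hA : A.LiesOverPrime ℓ)
    (hmod : Mod.GoodModelStatement (levelM N ℓ) ℓ A) (halg : Mod.AlgStatement (levelM N ℓ))
    (h : ModularCurve.ReductionInputsModL A N) (m : ℕ) (hm : ¬ ℓ ∣ m)
    (z : ModularCurve.JZero N) (hmz : m • z = 0)
    (hz : ModularCurve.reductionModL A N z = 0) : z = 0 := by
  refine H694.s18_of_prime_case N A (fun p hp hℓp z hpz hz => ?_) m hm z hmz hz
  exact s18_of_coreStatement h p hℓp (H144.node_constFk N hℓN A hA)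
    (coreStatement_of_mod_alg N hℓN A hA p hp hℓp hmod halg) z hpz hz

end Fermat.Agent.S18.Integ
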