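import Fermat.Agent.S18.Spec
import Fermat.Agent.S18.H665.StepA

/-!
# S18 integration — top layer (row-lead helper18)

`CoreStatement N A m` (frozen hub, `Spec.lean`)  ⟹  `H665.Core N A m`  ⟹ (helper665 Step A) frozen S18,
given `H665.ConstLemma N A` (CONST_Fk).
-/

set_option autoImplicit false

noncomputable section

namespace Fermat.Agent.S18.Integ

open ModularCurve AlgebraicCurve HahnSeries

variable {N : ℕ} {A : ValuationSubring (AlgebraicClosure ℚ)}

theorem isInt_of_good {U : LaurentSeries A} (h : H665.Good A N U) : IsInt A N U :=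
  ⟨h.memF, h.memFk, h.ne⟩

/-- Adapter: the frozen hub statement implies helper665's `Core`. -/
theorem core665_of_coreStatement {m : ℕ} (hm : m ≠ 0) (h : CoreStatement N A m) :
    H665.Core N A m := by
  intro U₁ U₂ h₁ h₂ hred hdiv
  have h₁' : IsInt A N U₁ := isInt_of_good h₁
  have h₂' : IsInt A N U₂ := isInt_of_good h₂
  have e₁ : toF h₁' = h₁.toF := rfl
  have e₂ : toF h₂' = h₂.toF := rfl
  obtain ⟨c, y, hc, hy, hcy⟩ := h U₁ U₂ h₁' h₂' hred (fun v => by
    have := hdiv v
    rw [H665.ord_div' v h₁.toF_ne_zero h₂.toF_ne_zero] at this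
    rw [e₁, e₂]
    exact this)
  obtain ⟨c', hc'⟩ := IsAlgClosed.exists_pow_nat_eq c (Nat.pos_of_ne_zero hm)
  refine ⟨algebraMap (AlgebraicClosure ℚ) (modularFunctionFieldBar N) c' * y, ?_⟩
  rw [e₁, e₂] at hcy
  rw [hcy, mul_pow, ← map_pow, hc', mul_div_assoc, div_self h₂.toF_ne_zero, mul_one]

/-- Frozen S18 from the hub statement and CONST_Fk. -/
theorem s18_of_coreStatement [NeZero N] {ℓ : ℕ} [Fact ℓ.Prime]
    (h : ModularCurve.ReductionInputsModL A N) (m : ℕ) (hm : ¬ ℓ ∣ m)
    (hconst : H665.ConstLemma N A) (hcore : CoreStatement N A m)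
    (z : ModularCurve.JZero N) (hmz : m • z = 0)
    (hz : ModularCurve.reductionModL A N z = 0) : z = 0 := by
  have hm0 : m ≠ 0 := by
    rintro rfl
    exact hm (dvd_zero ℓ)
  exact H665.S18_of_core_frozen_shape (N := N) (A := A) h m hm hconst
    (core665_of_coreStatement hm0 hcore) z hmz hz

end Fermat.Agent.S18.Integ
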